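import Fermat.Statements.S15
import Fermat.Agent.S17.Unr.Infty
import Fermat.Agent.S24.FNAdjoin
import Fermat.Agent.S13.Minkowski
import Fermat.Agent.S37.RedFN
import Fermat.Agent.S37.HeckeDiv
import Fermat.Agent.GAL.INJ.ResAlgClosed
import Fermat.Agent.GAL.Igusa.Main
import Fermat.Prelude.Def_ModularCurve_HeckeModule

/-!
# S15 (Mazur, step 3): TOP LEVEL CONTRACTS, v3 (integration: helper68)

v3 = the NUMERIC interface of v1 (`IsPt`, `NearInf`, `NearZero`) + hypothesis `hup` in `M1Out` + second level of v2.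
(v2's `RedEq` is gone: there is no `IsRedMap` at the non neat level `p`; block RED translates `NearInf`/`NearZero`
into `S37.Rdiv` equalities at level `p * c`.)

```
S15  ⟸  M1Out (moduli bridge)  ∧  Key
Key  ⟸  KeyOfFin (block Z6)    ∧  FinAll
FinAll ⟸ FinOfCore (block Z5)  ∧  CoreAll (route W = report 339: blocks D, F, P, H, APP)
```
-/

set_option autoImplicit false

noncomputable section

namespace Fermat.Agent.S15

open AlgebraicCurve ModularCurve Fermat.Agent.S24 WeierstrassCurve WeierstrassCurve.Affine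
open Fermat.Agent.GAL Fermat.Agent.GAL.RED Fermat.Agent.GAL.Igusa Fermat.Agent.S37

/-- The absolute Galois group of `ℚ`. -/
abbrev GQ : Type := Kbar ≃ₐ[ℚ] Kbar

/-- The (semilinear) action of `σ` on `FN N`, hence on its places and divisors
(coefficientwise on `q`-expansions). -/
def gal (N : ℕ) (σ : GQ) : SemilinearAut Kbar (FN N) :=
  arithmeticGalois (L := Kbar) (modularFunctionFieldFull N) σ

/-- The cusp `∞` (the `q`-adic place). -/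
abbrev oo (p : ℕ) [NeZero p] : Place Kbar (FN p) := S17.Unr.oo p

open Classical in
/-- The cusp `0`: the pole of `j` different from `∞` (unique for `p` prime). -/
def zz (p : ℕ) [NeZero p] : Place Kbar (FN p) :=
  if h : ∃ v : Place Kbar (FN p), v ≠ oo p ∧ v.ord (jF p) < 0 then h.choose else oo p

/-- `j(W) = c₄³/Δ` in `Kbar`. -/
def jW (W : WeierstrassCurve ℤ) : Kbar := ((W.c₄ : ℤ) : Kbar) ^ 3 / ((W.Δ : ℤ) : Kbar)

/-- `x` is the point `(j, j_p) = (a, b)`. -/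
structure IsPt (p : ℕ) [NeZero p] (x : Place Kbar (FN p)) (a b : Kbar) : Prop where
  ha : 0 < x.ord (jF p - algebraMap Kbar (FN p) a)
  hb : 0 < x.ord (FNAdjoin.jd p p dvd_rfl - algebraMap Kbar (FN p) b)

/-- `(a, b)` is `A`-adically close to the cusp `∞` (`j = 1/q + ..`, `j_p = 1/q^p + ..`). -/
def NearInf (A : ValuationSubring Kbar) (p : ℕ) (a b : Kbar) : Prop :=
  a ∉ A ∧ A.valuation b = A.valuation a ^ p

/-- `(a, b)` is `A`-adically close to the cusp `0`. -/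
def NearZero (A : ValuationSubring Kbar) (p : ℕ) (a b : Kbar) : Prop :=
  a ∉ A ∧ A.valuation b ^ p = A.valuation a

/-- **CONTRACT M1 (moduli bridge).**  Stated for a Galois stable cyclic subgroup `⟨Q⟩` of prime order `p`
(so that S12 can use it as well); `hup`: at some multiplicative prime the subgroup lies in the zero component
(this makes `G_ℚ`-fixedness easy: exactly one place over `j(W)` reduces to `∞`). -/
def M1Out : Prop :=
  ∀ (p : ℕ) [NeZero p], p.Prime → 5 ≤ p → ∀ (W : WeierstrassCurve ℤ), W.Δ ≠ 0 →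
    ∀ Q : ((W.map (Int.castRingHom ℚ))⁄Kbar).Point,
      (∀ σ : GQ, σ • Q ∈ AddSubgroup.zmultiples Q) → addOrderOf Q = p →
      (∃ ℓ₀ : ℕ, ℓ₀.Prime ∧ ℓ₀ ≠ p ∧ (ℓ₀ : ℤ) ∣ W.Δ ∧ ¬ (ℓ₀ : ℤ) ∣ W.c₄ ∧
        ∃ A₀ : ValuationSubring Kbar, A₀.LiesOverPrime ℓ₀ ∧ W.InZeroComponentAt A₀ Q) →
      ∃ (x : Place Kbar (FN p)) (b : Kbar), (∀ σ : GQ, gal p σ • x = x) ∧ IsPt p x (jW W) b ∧
        ∀ ℓ : ℕ, ℓ.Prime → ℓ ≠ p → (ℓ : ℤ) ∣ W.Δ → ¬ (ℓ : ℤ) ∣ W.c₄ →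
          ∀ A : ValuationSubring Kbar, A.LiesOverPrime ℓ →
            (W.InZeroComponentAt A Q → NearInf A p (jW W) b) ∧
            (¬ W.InZeroComponentAt A Q → NearZero A p (jW W) b)

/-- The conclusion of KEY for one level. -/
def KeyAt (p : ℕ) [NeZero p] : Prop :=
  ∀ (x : Place Kbar (FN p)) (a b : Kbar), (∀ σ : GQ, gal p σ • x = x) → IsPt p x a b →
    (∃ A : ValuationSubring Kbar, A.LiesOverPrime 2 ∧ NearZero A p a b) →
    (∃ A : ValuationSubring Kbar, A.LiesOverPrime 3 ∧ NearZero A p a b) →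
    ∀ ℓ : ℕ, ℓ.Prime → ℓ ≠ p → 5 ≤ ℓ → ∀ A : ValuationSubring Kbar, A.LiesOverPrime ℓ →
      ¬ NearInf A p a b

/-- **CONTRACT KEY (Jacobian side).**  No rational point of `X₀(p)` reduces to `0` at `2` and `3`
and to `∞` at some `ℓ ≥ 5`, `ℓ ≠ p`. -/
def Key : Prop :=
  ∀ (p : ℕ) [NeZero p], p.Prime → p ∉ ({2, 3, 5, 7, 13} : Finset ℕ) → KeyAt p

/-- S15 from the two top level contracts (same statement as the frozen one). -/
theorem result_of (hM1 : M1Out) (hKey : Key)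
    {p : ℕ} (hp : p.Prime) (hp' : p ∉ ({2, 3, 5, 7, 13} : Finset ℕ))
    (W : WeierstrassCurve ℤ) (hΔ : W.Δ ≠ 0)
    (Q : ((W.map (Int.castRingHom ℚ))⁄(AlgebraicClosure ℚ)).Point)
    (hQfix : ∀ σ : AlgebraicClosure ℚ ≃ₐ[ℚ] AlgebraicClosure ℚ, σ • Q = Q)
    (hQord : addOrderOf Q = p)
    (h2Δ : (2 : ℤ) ∣ W.Δ) (h2c₄ : ¬ (2 : ℤ) ∣ W.c₄)
    (h2 : ∀ A : ValuationSubring (AlgebraicClosure ℚ), A.LiesOverPrime 2 → ¬ W.InZeroComponentAt A Q)
    (h3Δ : (3 : ℤ) ∣ W.Δ) (h3c₄ : ¬ (3 : ℤ) ∣ W.c₄)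
    (h3 : ∀ A : ValuationSubring (AlgebraicClosure ℚ), A.LiesOverPrime 3 → ¬ W.InZeroComponentAt A Q)
    {ℓ : ℕ} (hℓ : ℓ.Prime) (hℓp : ℓ ≠ p) (hℓΔ : (ℓ : ℤ) ∣ W.Δ) (hℓc₄ : ¬ (ℓ : ℤ) ∣ W.c₄)
    (A : ValuationSubring (AlgebraicClosure ℚ)) (hA : A.LiesOverPrime ℓ) :
    ¬ W.InZeroComponentAt A Q := by
  have : NeZero p := ⟨hp.ne_zero⟩
  have hp2 : p ≠ 2 := fun h => hp' (by simp [h])
  have hp3 : p ≠ 3 := fun h => hp' (by simp [h])
  have hp5 : 5 ≤ p := by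
    have h2' := hp.two_le
    by_contra hlt
    have h4 : p = 4 := by omega
    rw [h4] at hp
    exact absurd hp (by norm_num)
  by_cases hℓ2 : ℓ = 2
  · subst hℓ2; exact h2 A hA
  by_cases hℓ3 : ℓ = 3
  · subst hℓ3; exact h3 A hA
  have hℓ5 : 5 ≤ ℓ := by
    have h2' := hℓ.two_le
    by_contra hlt
    have h4 : ℓ = 4 := by omega
    rw [h4] at hℓ
    exact absurd hℓ (by norm_num)
  intro hin
  obtain ⟨x, b, hfix, hpt, hloc⟩ := hM1 p hp hp5 W hΔ Q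
    (fun σ => by rw [hQfix σ]; exact AddSubgroup.mem_zmultiples Q) hQord
    ⟨ℓ, hℓ, hℓp, hℓΔ, hℓc₄, A, hA, hin⟩
  obtain ⟨A2, hA2⟩ := Fermat.Agent.S13.exists_liesOverPrime_Qbar Nat.prime_two
  obtain ⟨A3, hA3⟩ := Fermat.Agent.S13.exists_liesOverPrime_Qbar Nat.prime_three
  exact hKey p hp hp' x (jW W) b hfix hpt
    ⟨A2, hA2, (hloc 2 Nat.prime_two (Ne.symm hp2) h2Δ h2c₄ A2 hA2).2 (h2 A2 hA2)⟩
    ⟨A3, hA3, (hloc 3 Nat.prime_three (Ne.symm hp3) h3Δ h3c₄ A3 hA3).2 (h3 A3 hA3)⟩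
    ℓ hℓ hℓp hℓ5 A hA ((hloc ℓ hℓ hℓp hℓΔ hℓc₄ A hA).1 hin)

/-! ## Second level: `Key ⟸ Fin ⟸ Core` -/

/-- `(x) - (y)`. -/
def ptDiv (p : ℕ) (x y : Place Kbar (FN p)) : Divisor Kbar (FN p) :=
  Finsupp.single x 1 - Finsupp.single y 1

open Classical in
/-- The class of `(x) - (y)` in `J₀(p)`. -/
def ptCls (p : ℕ) (x y : Place Kbar (FN p)) : JZero p :=
  if h : ptDiv p x y ∈ Divisor.degZero (K := Kbar) (F := FN p) then Pic0.mk ⟨ptDiv p x y, h⟩ else 0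

/-- The cuspidal class `c = (0) - (∞)`. -/
def cusp (p : ℕ) [NeZero p] : JZero p := ptCls p (zz p) (oo p)

/-- `J₀(p)(ℚ)`. -/
abbrev JQ (p : ℕ) : AddSubgroup (JZero p) := FixedPoints.addSubgroup GQ (JZero p)

/-- The ring generated by the Hecke operators `T_q`, `q` prime, `q ≠ p`, `q ∉ S`, acting on `J₀(p)(Qbar)`
(commutativity is neither known nor needed). -/
def TTS (p : ℕ) [NeZero p] (S : Finset ℕ) : Subalgebra ℤ (Module.End ℤ (JZero p)) :=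
  Algebra.adjoin ℤ {T | ∃ q : Nat.Primes, (q : ℕ) ≠ p ∧ (q : ℕ) ∉ S ∧ T = heckeOperatorBar p q}

/-- **FIN**: some Hecke operator `≡ 1` modulo the Eisenstein prime above `r` kills `J₀(p)(ℚ)` up to
torsion. -/
def Fin (p : ℕ) [NeZero p] (r : ℕ) (S : Finset ℕ) : Prop :=
  ∃ t ∈ TTS p S, (∃ b : ℤ, t (cusp p) = (1 - (r : ℤ) * b) • cusp p) ∧
    ∀ z ∈ JQ p, ∃ m : ℕ, m ≠ 0 ∧ m • t z = 0

/-- **COREBOUND** (output of route W, report 339 (4)). -/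
def CoreBound (p : ℕ) [NeZero p] (r : ℕ) (S : Finset ℕ) : Prop :=
  ∃ C : ℕ, C ≠ 0 ∧ ∀ k : ℕ, ∃ eps ∈ TTS p S,
    (∃ b : ℤ, eps (cusp p) = (1 - (r : ℤ) * b) • cusp p) ∧
      ∀ P ∈ JQ p, ∃ y ∈ JQ p, r ^ k • y = C • eps P

/-- the admissible `(p, r)`: `r ≠ p` is a prime dividing the (finite) order of the cuspidal class. -/
def Adm (p : ℕ) [NeZero p] (r : ℕ) : Prop :=
  p.Prime ∧ p ∉ ({2, 3, 5, 7, 13} : Finset ℕ) ∧ r.Prime ∧ r ∣ addOrderOf (cusp p) ∧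
    addOrderOf (cusp p) ≠ 0 ∧ r ≠ p

/-- **CONTRACT CORE** (blocks D, F, P, H, APP). -/
def CoreAll : Prop := ∀ (p : ℕ) [NeZero p] (r : ℕ) (S : Finset ℕ), Adm p r → CoreBound p r S

/-- **CONTRACT Z5** (pure algebra + S17). -/
def FinOfCore : Prop :=
  ∀ (p : ℕ) [NeZero p] (r : ℕ) (S : Finset ℕ), Adm p r → CoreBound p r S → Fin p r S

/-- **CONTRACT Z6** (OUTER). -/
def KeyOfFin : Prop :=
  ∀ (p : ℕ) [NeZero p], p.Prime → p ∉ ({2, 3, 5, 7, 13} : Finset ℕ) →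
    (∀ (r : ℕ) (S : Finset ℕ), Adm p r → Fin p r S) → KeyAt p

theorem key_of (h6 : KeyOfFin) (h5 : FinOfCore) (hc : CoreAll) : Key :=
  fun p _ hp hp' => h6 p hp hp' fun r S h => h5 p r S h (hc p r S h)

end Fermat.Agent.S15
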